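import Fermat.Agent.S15.Cusp.Defs
import Fermat.Agent.GR.A.FiniteHalf
import Fermat.Agent.GR.B.MerLevel

/-!
# S15, module CUSP, file Hol: `g = Δ(q)/Δ(q^p)` is a unit at all non-cuspidal places

* `ord_nonneg_of_evF_eq_holMer`: an element of the function field whose analytic realisation is
  holomorphic on `ℍ` is regular at every place `v` with `v(j) ≥ 0`.
* `evF_gF`: the analytic realisation of `g` is `τ ↦ Δ(τ)/Δ(pτ)` (`LP.EIS.dFun p`).
-/

set_option autoImplicit false

noncomputable section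

namespace Fermat.Agent.S15.Cusp

open UpperHalfPlane ModularCurve AlgebraicCurve Fermat.Agent.GR Fermat.Agent.LP.EIS IntermediateField
open Fermat.Agent.S24 (Hol MerInf laurentHom)
open Fermat.Agent.GR.A (evF holMer)

/-- common core of the three cases `j = 0`, `j = 1728`, `j` generic. -/
theorem Hol_ord_nonneg_core {K : Type} [Field K] [IsAlgClosed K] [CharZero K]
    (ι : K →+* ℂ) (N : ℕ) [NeZero N] (τ0 : ℍ) (c0 : K) (e0 : ℕ)
    (g : Equiv.Perm (Fermat.Agent.S24.Cosets N))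
    (P : A.PreUnif ι N c0 e0 e0 g) (hP : P.Ψ = A.localPsi ι N τ0)
    (f : FF K N) (hf : f ≠ 0) (c : Hol) (hc : evF ι N f = holMer c)
    (v : Place K (FF K N)) (hv : 0 < v.ord (A.jF K N - algebraMap K (FF K N) c0)) :
    0 ≤ v.ord f := by
  obtain ⟨U, -, hUφ⟩ := P.toUnifData
  have hx : Transcendental K (A.jF K N - algebraMap K (FF K N) c0) :=
    S24.transcendental_sub_algebraMap (A.transcendental_jF ι N) c0
  haveI := A.finiteDimensional_FF ι N
  haveI : FiniteDimensional K⟮A.jF K N - algebraMap K (FF K N) c0⟯ (FF K N) :=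
    S24.finiteDimensional_of_eq (S24.adjoin_sub_algebraMap (A.jF K N) c0)
  have hcard : Nat.card (Fermat.Agent.S24.Cosets N) =
      Module.finrank K⟮A.jF K N - algebraMap K (FF K N) c0⟯ (FF K N) := by
    rw [A.finrank_FF ι N, S24.finrank_eq_of_eq (S24.adjoin_sub_algebraMap (A.jF K N) c0)]
  obtain ⟨i, hi⟩ := U.exists_induced hx hcard v hv
  obtain ⟨k, hk, hkw, hkf⟩ := A.exists_mul_minimalPeriod_eq U hx hcard i v hi
  obtain ⟨gg, rfl⟩ := QuotientGroup.mk_surjective i
  set δ := gg⁻¹ with hδ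
  set C := Fermat.Agent.S24.compHom δ c with hC
  have hc0 : c ≠ 0 := by
    rintro rfl
    rw [map_zero] at hc
    exact hf ((map_eq_zero _).1 hc)
  have hC0 : C ≠ 0 := fun h => hc0 (A.compHom_injective δ (by rw [← hC, h, map_zero]))
  have hord2 : (A.tayL τ0 C).order = (k : ℤ) * v.ord f := by
    rw [← hkf]
    obtain ⟨a, b, hb, rfl⟩ := A.exists_frac K N f
    have ha : a ≠ 0 := by
      rintro rfl
      apply hf
      rw [map_zero, zero_div]
    have hb' : A.incl K N b ≠ 0 := fun h => hb (A.incl_injective K N (by rw [h, map_zero]))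
    have ha' : A.incl K N a ≠ 0 := fun h => ha (A.incl_injective K N (by rw [h, map_zero]))
    rw [S24.order_map_div _ ha' hb', hUφ, hUφ, hP]
    have hrel : A.evA ι N a = c * A.evA ι N b := by
      apply A.holMer_injective
      rw [map_mul, ← hc, map_div₀, A.evF_incl, A.evF_incl, div_mul_cancel₀]
      intro h
      exact hb (A.evA_injective ι N (A.holMer_injective (by rw [h, map_zero, map_zero])))
    have hrel2 : A.conjHom ι N (QuotientGroup.mk gg) a =
        C * A.conjHom ι N (QuotientGroup.mk gg) b := by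
      rw [A.conjHom_mk, A.conjHom_mk, hrel, map_mul]
    have e1 : A.localPsi ι N τ0 (QuotientGroup.mk gg) a =
        A.tayL τ0 C * A.localPsi ι N τ0 (QuotientGroup.mk gg) b := by
      rw [A.localPsi_apply, A.localPsi_apply, hrel2, map_mul, map_mul]
      rfl
    rw [e1, HahnSeries.order_mul]
    · ring
    · exact fun h0 => hC0 (A.tayL_injective τ0 (by rw [h0, map_zero]))
    · exact fun h0 => hb (A.localPsi_injective ι N τ0 _ (by rw [h0, map_zero]))
  have h0 : (0 : ℤ) ≤ (k : ℤ) * v.ord f := by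
    rw [← hord2, A.order_tayL]
    exact Int.natCast_nonneg _
  have hk' : (0 : ℤ) < (k : ℤ) := by exact_mod_cast hk
  exact nonneg_of_mul_nonneg_right h0 hk'

/-- PROOF.  Copy the structure of `GR.A.dvd_ord_of_root_core` / `dvd_ord_of_root_of_ord_j_nonneg`
(`GR/A/FiniteHalf.lean`): `c0 :=` the value of `j` at `v` (`GR.C.exists_sub_mem_maximalIdeal`:
`0 < v.ord (j - c0)`), `τ0` with `j(τ0) = ι c0`, the three cases `c0 = 0`, `c0 = 1728`, generic give a
`PreUnif ι N c0 e0 e0 g` with `P.Ψ = localPsi ι N τ0`; `P.toUnifData` says that `v` is induced by one of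
the embeddings `φ i : FF K N →+* ℂ((t))` (`(φ i f).order = k * v.ord f`, `k > 0`), where
`φ i (incl a) = tayL τ0 (conjHom i a)` is the Taylor expansion at `τ0` of a conjugate.  For `f` with
`evF f = holMer c`: `φ (δ⁻¹Γ) f = tayL τ0 (compHom δ c)` is a power series: order `≥ 0`. -/
theorem ord_nonneg_of_evF_eq_holMer {K : Type} [Field K] [IsAlgClosed K] [CharZero K]
    (ι : K →+* ℂ) (N : ℕ) [NeZero N] (f : FF K N) (c : Hol) (hc : evF ι N f = holMer c)
    (v : Place K (FF K N)) (hv : 0 ≤ v.ord (A.jF K N)) : 0 ≤ v.ord f := by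
  haveI := A.finiteDimensional_FF ι N
  by_cases hf : f = 0
  · subst hf
    simp
  rcases S24.exists_center (A.jF K N) (A.transcendental_jF ι N) v with h | ⟨c0, hc0⟩
  · rw [v.ord_inv] at h
    omega
  by_cases h0 : c0 = 0
  · subst h0
    exact Hol_ord_nonneg_core ι N Fermat.Agent.S24.rhoPt 0 3 _ (A.preUnifZero ι N) rfl f hf c hc v hc0
  by_cases h1 : c0 = 1728
  · subst h1
    exact Hol_ord_nonneg_core ι N UpperHalfPlane.I 1728 2 _ (A.preUnif1728 ι N) rfl f hf c hc v hc0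
  · obtain ⟨τ0, hτ0⟩ := S24.exists_jfun_eq (ι c0)
    exact Hol_ord_nonneg_core ι N τ0 c0 1 _ (A.preUnifGeneric ι N c0 h0 h1 τ0 hτ0) rfl f hf c hc v hc0

/-- `τ ↦ Δ(τ)/Δ(pτ)` as a holomorphic function. -/
def dHol (p : ℕ) [NeZero p] : Hol := ⟨dFun p, Mem_mdiff_dFun p⟩

/-- its inverse. -/
def dInvHol (p : ℕ) [NeZero p] : Hol := ⟨fun τ => (dFun p τ)⁻¹, Mem_mdiff_dFun_inv p⟩

theorem dHol_mul_dInvHol (p : ℕ) [NeZero p] : dHol p * dInvHol p = 1 := by
  apply Subtype.ext
  funext τ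
  exact mul_inv_cancel₀ (dFun_ne_zero p τ)

/-- PROOF. `GR.A.evF_qExpansion`: `evF f * holMer b = holMer a`, `coeffMap ι f * laurentHom 1 b =
laurentHom 1 a` with `a b : MerInf 1`, `b ≠ 0`.  `coeffMap ι (dS ℚ̄ p) = dS ℂ p` (`coeffMap_dS`),
`dS ℂ p = laurentHom 1 ⟨dFun p, _⟩` (`GR.B.laurentHom_eq_of_isExp (isExp_dFun p)`), so
`laurentHom 1 (d * b) = laurentHom 1 a`, `d * b = a` (`S24.laurentHom_injective`), hence
`holMer (dHol p) * holMer b = holMer a = evF f * holMer b`; cancel `holMer b ≠ 0`. -/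
theorem evF_gF (ι : Qb →+* ℂ) (p : ℕ) [NeZero p] (N : ℕ) [NeZero N] (h : p ∣ N) :
    evF ι N (gF p N h) = holMer (dHol p) := by
  obtain ⟨a, b, hb, h1, h2⟩ := A.evF_qExpansion ι N (gF p N h)
  rw [coe_gF, coeffMap_dS, ← Fermat.Agent.GR.B.laurentHom_eq_of_isExp (isExp_dFun p), ← map_mul] at h2
  have h3 := Fermat.Agent.S24.laurentHom_injective 1 h2
  have h4 : dHol p * A.MerInf.toHol b = A.MerInf.toHol a := by
    apply Subtype.ext
    exact congrArg (fun z : MerInf 1 => (z : ℍ → ℂ)) h3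
  have hb' : holMer (A.MerInf.toHol b) ≠ 0 := by
    intro h0
    apply hb
    have h5 : A.MerInf.toHol b = 0 := A.holMer_injective (by rw [h0, map_zero])
    exact Subtype.ext (congrArg (fun z : Hol => (z : ℍ → ℂ)) h5)
  apply mul_right_cancel₀ hb'
  rw [h1, ← h4, map_mul]

/-- **`g` is a unit at the non-cuspidal places.**  (Apply `ord_nonneg_of_evF_eq_holMer` to `g` and
to `g⁻¹`, `evF g⁻¹ = holMer (dInvHol p)`; `Place.ord_inv` / `ord_mul`.) -/
theorem ord_gF_eq_zero (p : ℕ) [NeZero p] (N : ℕ) [NeZero N] (h : p ∣ N)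
    (v : Place Qb (FF Qb N)) (hv : 0 ≤ v.ord (C.jF Qb N)) : v.ord (gF p N h) = 0 := by
  obtain ⟨ι⟩ : Nonempty (Qb →+* ℂ) := by
    haveI : Algebra.IsAlgebraic ℚ Qb := AlgebraicClosure.isAlgebraic ℚ
    exact ⟨(IsAlgClosed.lift (R := ℚ) (S := Qb) (M := ℂ)).toRingHom⟩
  have hv' : 0 ≤ v.ord (A.jF Qb N) := hv
  have h1 := ord_nonneg_of_evF_eq_holMer ι N (gF p N h) (dHol p) (evF_gF ι p N h) v hv'
  have hg : evF ι N (gF p N h)⁻¹ = holMer (dInvHol p) := by
    rw [map_inv₀, evF_gF]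
    apply inv_eq_of_mul_eq_one_right
    rw [← map_mul, dHol_mul_dInvHol, map_one]
  have h2 := ord_nonneg_of_evF_eq_holMer ι N (gF p N h)⁻¹ (dInvHol p) hg v hv'
  rw [v.ord_inv] at h2
  omega

end Fermat.Agent.S15.Cusp
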