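import Fermat.Agent.S15.Cusp.Export
import Fermat.Agent.S15.Top
import Fermat.Agent.S15.Atl.Defs
import Fermat.Agent.S15.Red.Iface

/-!
# S15, module CUSP, file RCusp: the contract `RCusp` of `S15/Top.lean`
-/

set_option autoImplicit false

noncomputable section

namespace Fermat.Agent.S15.Cusp

open ModularCurve AlgebraicCurve Fermat.Agent.GR

local notation "𝔽" => modularFunctionFieldBar

/-- a choice of the cusps of `X₀(p)`. -/
def cuspData (p : ℕ) [NeZero p] (hp : p.Prime) : CuspData p (𝔽 p) :=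
  (nonempty_cuspData hp (𝔽 p) (GR.S.bar_eq_FF p)).some

/-- the class `c = m [(0) - (∞)]`. -/
def cCl (p : ℕ) [NeZero p] (hp : p.Prime) (m : ℕ) : JZero p := m • ((cuspData p hp).c₀ : JZero p)

variable {p : ℕ} [NeZero p]

/-- **The contract `RCusp`**, for any cusp data `C`, any family `K` of subgroups with
`K Al ≤ K1q p l Al`. -/
theorem rCusp_of (C : CuspData p (𝔽 p)) (hp : p.Prime) {l a m : ℕ} (h : IsDescent p l a m)
    (K : ValuationSubring Qb → AddSubgroup (JZero p)) (Al : ValuationSubring Qb)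
    (hAl : Al.LiesOverPrime l) (hK : K Al ≤ Red.K1q p l Al) :
    RCusp (JZero p) l (Atl.J1 K l) Al (Atl.Tq p h.prime) (m • (C.c₀ : JZero p)) := by
  obtain ⟨h1, h2, h3, h4⟩ := c_props C hp h
  have hlp : ¬ l ∣ p := fun hd => h.ne ((Nat.prime_dvd_prime_iff_eq h.prime hp).mp hd)
  refine ⟨h1, ⟨a, h2⟩, h3, fun hmem => ?_⟩
  rw [Atl.J1_of_liesOver K hAl] at hmem
  have h5 := hmem 1 (one_mem _) 1 (one_mem _)
  rw [one_smul] at h5
  exact h4 Al hAl (Red.lvl p l) (Red.dvd_lvl p l) _ (Red.rd Al p l)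
    (Red.isRed_rd p h.prime hlp Al hAl) (hK h5)

theorem rCusp (hp : p.Prime) {l a m : ℕ} (h : IsDescent p l a m)
    (K : ValuationSubring Qb → AddSubgroup (JZero p)) (Al : ValuationSubring Qb)
    (hAl : Al.LiesOverPrime l) (hK : K Al ≤ Red.K1q p l Al) :
    RCusp (JZero p) l (Atl.J1 K l) Al (Atl.Tq p h.prime) (cCl p hp m) :=
  rCusp_of (cuspData p hp) hp h K Al hAl hK

end Fermat.Agent.S15.Cusp
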