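import Mathlib

/-!
# S15, module CUSP, file Arith: the choice of the descent prime `l`

`p ∉ {2,3,5,7,13}` prime `⟹ p - 1 ∤ 24 ⟹` there is a prime power `l ^ a ∣ p - 1`, `l ^ a ∤ 24`.
-/

set_option autoImplicit false

namespace Fermat.Agent.S15.Cusp

/-- PROOF. If `p - 1 ∣ 24` then `p - 1 ∈ {1,2,3,4,6,8,12,24}`, `p ∈ {2,3,4,5,7,9,13,25}`: excluded
(`Nat.divisors 24`, `decide` / `interval_cases`).  So `¬ p - 1 ∣ 24` and
`Nat.dvd_iff_prime_pow_dvd_dvd` gives `l`, `a`.  `a ≠ 0` (as `l ^ 0 = 1 ∣ 24`) so `l ∣ p - 1`: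
`l ≠ p`, and `l ≠ p - 1` (otherwise `p - 1` is a prime, `p` is odd, so `p - 1 = 2`, `p = 3`), so
`p - 1 = l * m` with `m ≥ 2`. -/
theorem exists_prime_pow_dvd {p : ℕ} (hp : p.Prime) (hp' : p ∉ ({2, 3, 5, 7, 13} : Finset ℕ)) :
    ∃ l a : ℕ, l.Prime ∧ l ≠ p ∧ 2 * l ≤ p - 1 ∧ l ^ a ∣ p - 1 ∧ ¬ l ^ a ∣ 24 := by
  have h2 := hp.two_le
  simp only [Finset.mem_insert, Finset.mem_singleton, not_or] at hp'
  have hnd : ¬ (p - 1) ∣ 24 := by
    intro h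
    have hle : p - 1 ≤ 24 := Nat.le_of_dvd (by norm_num) h
    have hle' : p ≤ 25 := by omega
    interval_cases p <;> first | omega | norm_num at hp
  rw [Nat.dvd_iff_prime_pow_dvd_dvd] at hnd
  push Not at hnd
  obtain ⟨l, a, hl, hla, hn⟩ := hnd
  have ha : a ≠ 0 := by
    rintro rfl
    exact hn (by simp)
  have hlp : l ∣ p - 1 := (dvd_pow_self l ha).trans hla
  obtain ⟨m, hm⟩ := hlp
  have hl2 := hl.two_le
  refine ⟨l, a, hl, ?_, ?_, hla, hn⟩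
  · have : l ≤ p - 1 := Nat.le_of_dvd (by omega) ⟨m, hm⟩
    omega
  · have hm0 : m ≠ 0 := by
      rintro rfl
      omega
    have hm1 : m ≠ 1 := by
      rintro rfl
      rw [mul_one] at hm
      rcases hp.eq_two_or_odd with h | h
      · omega
      · have h3 : 2 ∣ l := by omega
        have h4 : l = 2 := ((Nat.prime_dvd_prime_iff_eq Nat.prime_two hl).1 h3).symm
        omega
    have h5 : 2 ≤ m := by omega
    rw [hm]
    nlinarith

/-- PROOF. `Nat.exists_eq_pow_mul_and_not_dvd` for `24 ≠ 0`; if `a ≤ v` then `l ^ a ∣ l ^ v ∣ 24`. -/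
theorem exists_eq_pow_mul {l a : ℕ} (hl : l.Prime) (h : ¬ l ^ a ∣ 24) :
    ∃ v c : ℕ, 24 = l ^ v * c ∧ ¬ l ∣ c ∧ v < a := by
  obtain ⟨v, c, hc, h24⟩ := Nat.exists_eq_pow_mul_and_not_dvd (n := 24) (by norm_num) l hl.ne_one
  refine ⟨v, c, h24, hc, ?_⟩
  by_contra hva
  push Not at hva
  exact h ((pow_dvd_pow l hva).trans ⟨c, h24⟩)

end Fermat.Agent.S15.Cusp
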