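import Fermat.Agent.S15.Cusp.Defs

/-!
# S15, module CUSP, file Class: the cuspidal class `c₀ = [(0) - (∞)]`

Formal consequences of a `CuspData p E`.
-/

set_option autoImplicit false

noncomputable section

namespace Fermat.Agent.S15.Cusp

open ModularCurve AlgebraicCurve Fermat.Agent.GR Fermat.Agent.LP.EIS

variable {p : ℕ} [NeZero p] {E : IntermediateField Qb (LaurentSeries Qb)} (C : CuspData p E)

namespace CuspData

/-- the divisor `(0) - (∞)`. -/
def div₀ : Divisor Qb E := Finsupp.single C.zero 1 - Finsupp.single C.inf 1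

theorem div₀_mem : C.div₀ ∈ Divisor.degZero (K := Qb) (F := E) := by
  rw [Divisor.mem_degZero, div₀, map_sub, Divisor.degree_single, Divisor.degree_single,
    C.deg_inf, C.deg_zero, sub_self]

/-- `(0) - (∞)` as a divisor of degree `0`. -/
def D₀ : Divisor.degZero (K := Qb) (F := E) := ⟨C.div₀, C.div₀_mem⟩

/-- the class `c₀ = [(0) - (∞)]`. -/
def c₀ : Pic0 Qb E := Pic0.mk C.D₀

theorem g_ne_zero : C.g ≠ 0 := by
  intro h
  have h1 := C.coe_g
  rw [h] at h1
  exact dS_ne_zero (Λ := Qb) p h1.symm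

/-- `div g = (p - 1) ((0) - (∞))`.  (`Finsupp` computation by cases `v = zero`, `v = inf`, other;
`ord_g_zero`, `ord_g_inf`, `ord_g_eq_zero`, `zero_ne_inf`.) -/
theorem smul_div₀_apply (v : Place Qb E) : (((p : ℤ) - 1) • C.div₀) v = v.ord C.g := by
  rw [Finsupp.smul_apply, div₀, Finsupp.sub_apply, smul_eq_mul]
  by_cases h0 : v = C.zero
  · subst h0
    rw [Finsupp.single_eq_same, Finsupp.single_eq_of_ne C.zero_ne_inf, C.ord_g_zero]
    ring
  · by_cases h1 : v = C.inf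
    · subst h1
      rw [Finsupp.single_eq_same, Finsupp.single_eq_of_ne (Ne.symm C.zero_ne_inf), C.ord_g_inf]
      ring
    · rw [Finsupp.single_eq_of_ne h0, Finsupp.single_eq_of_ne h1, C.ord_g_eq_zero v h1 h0]
      ring

/-- `(p - 1) c₀ = 0`. -/
theorem smul_c₀ : ((p : ℤ) - 1) • C.c₀ = 0 := by
  have h1 : ((p : ℤ) - 1) • C.c₀ = Pic0.mk (((p : ℤ) - 1) • C.D₀) := rfl
  rw [h1]
  refine (QuotientAddGroup.eq_zero_iff _).mpr ?_
  show (((p : ℤ) - 1) • C.div₀) ∈ Divisor.principal (K := Qb) (F := E)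
  exact ⟨C.g, C.g_ne_zero, fun v => C.smul_div₀_apply v⟩

/-- if `p - 1 = n * m` then `n • (m • ((0) - (∞))) = div g`: `g` is a Kummer function for the class
`m • c₀ ∈ J[n]`. -/
theorem smul_smul_div₀_apply {n m : ℕ} (h : p - 1 = n * m) (v : Place Qb E) :
    ((n : ℤ) • ((m : ℤ) • C.div₀)) v = v.ord C.g := by
  rw [← C.smul_div₀_apply v, smul_smul]
  congr 2
  have hp : 1 ≤ p := Nat.one_le_iff_ne_zero.mpr (NeZero.ne p)
  have : ((p : ℤ) - 1) = ((p - 1 : ℕ) : ℤ) := by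
    rw [Nat.cast_sub hp]; simp
  rw [this, h]
  push_cast
  ring

theorem smul_smul_c₀ {n m : ℕ} (h : p - 1 = n * m) : (n : ℤ) • ((m : ℤ) • C.c₀) = 0 := by
  rw [smul_smul, ← C.smul_c₀]
  congr 1
  have hp : 1 ≤ p := Nat.one_le_iff_ne_zero.mpr (NeZero.ne p)
  have : ((p : ℤ) - 1) = ((p - 1 : ℕ) : ℤ) := by
    rw [Nat.cast_sub hp]; simp
  rw [this, h]
  push_cast
  ring

/-- all orders of `g` are divisible by `p - 1`. -/
theorem dvd_ord_g (v : Place Qb E) : ((p : ℤ) - 1) ∣ v.ord C.g := by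
  rw [← C.smul_div₀_apply v, Finsupp.smul_apply, smul_eq_mul]
  exact dvd_mul_right _ _

/-- the class `c₀` is rational.  (`SemilinearAut.pic0_smul_mk`, `smul_single`, `smul_inf`,
`smul_zero`.) -/
theorem smul_c₀_eq (σ : GQ) (s : SemilinearAut Qb E)
    (hs : ∀ x : E, ((s • x : E) : LaurentSeries Qb) = gal σ (x : LaurentSeries Qb)) :
    s • C.c₀ = C.c₀ := by
  show s • Pic0.mk C.D₀ = Pic0.mk C.D₀
  rw [SemilinearAut.pic0_smul_mk]
  refine congrArg Pic0.mk (Subtype.ext ?_)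
  rw [SemilinearAut.coe_degZeroSMulHom]
  show s • C.div₀ = C.div₀
  rw [div₀, smul_sub, SemilinearAut.smul_single, SemilinearAut.smul_single, C.smul_inf σ s hs,
    C.smul_zero σ s hs]

end CuspData

/-- the class `c₀` of `JZero p` is fixed by `G_ℚ`.  (`galois_smul_pic0_def`,
`coe_arithmeticGalois_smul`, `gal` is `coeffMap σ` by definition.) -/
theorem galois_smul_c₀ (C : CuspData p (modularFunctionFieldBar p)) (σ : GQ) :
    σ • (C.c₀ : JZero p) = C.c₀ :=
  C.smul_c₀_eq σ (arithmeticGalois (modularFunctionFieldFull p) σ)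
    (fun x => coe_arithmeticGalois_smul _ σ x)

/-- `IsKummer (p - 1) g`, and `IsKummer n g` for every `n ∣ p - 1`. -/
theorem isKummer_dS (hp : p.Prime) (C : CuspData p (FF Qb p)) {n : ℕ} (hn : n ∣ p - 1) :
    IsKummer (N := p) n (dS Qb p) := by
  refine ⟨dS_ne_zero (Λ := Qb) p, dS_mem_FF p Qb dvd_rfl, fun v => ?_⟩
  have h1 : (⟨dS Qb p, dS_mem_FF p Qb dvd_rfl⟩ : FF Qb p) = C.g := Subtype.ext C.coe_g.symm
  rw [h1]
  refine dvd_trans ?_ (C.dvd_ord_g v)
  have : ((p : ℤ) - 1) = ((p - 1 : ℕ) : ℤ) := by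
    rw [Nat.cast_sub hp.one_le]; simp
  rw [this]
  exact_mod_cast hn

end Fermat.Agent.S15.Cusp
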