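import Fermat.Agent.LP.EIS.Mem
import Fermat.Agent.LP.EIS.Formal
import Fermat.Agent.GR.C.QPlace
import Fermat.Agent.GR.S.Bridge

/-!
# S15, module CUSP: definitions

`p` the (prime) level, `g = Δ(q)/Δ(q^p)` (`LP.EIS.dS`), the two cusps `∞`, `0` of `X₀(p)` as places of
the function field `E = FF ℚ̄ p` (`= modularFunctionFieldBar p`, see `GR.S.bar_eq_FF`).

`CuspData p E` collects everything the other modules of S15 use in characteristic `0`.
It is stated for an intermediate field `E` with `E = FF ℚ̄ p` so that it can be used both for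
`FF ℚ̄ p` and for `modularFunctionFieldBar p` (the field in `JZero p`).
-/

set_option autoImplicit false

noncomputable section

namespace Fermat.Agent.S15.Cusp

open ModularCurve AlgebraicCurve Fermat.Agent.GR Fermat.Agent.LP.EIS

abbrev Qb : Type := AlgebraicClosure ℚ

abbrev GQ : Type := Qb ≃ₐ[ℚ] Qb

/-- `g = Δ(q)/Δ(q^p)` as an element of `FF ℚ̄ N`, `p ∣ N`. -/
def gF (p : ℕ) [NeZero p] (N : ℕ) (h : p ∣ N) : FF Qb N := ⟨dS Qb p, dS_mem_FF p Qb h⟩

@[simp] theorem coe_gF (p : ℕ) [NeZero p] (N : ℕ) (h : p ∣ N) :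
    ((gF p N h : FF Qb N) : LaurentSeries Qb) = dS Qb p := rfl

/-- The cusps of `X₀(p)` and the divisor of `g`. -/
structure CuspData (p : ℕ) [NeZero p] (E : IntermediateField Qb (LaurentSeries Qb)) where
  /-- the cusp `∞` -/
  inf : Place Qb E
  /-- the cusp `0` -/
  zero : Place Qb E
  /-- `Δ(q)/Δ(q^p)` -/
  g : E
  /-- `j` -/
  j : E
  coe_g : (g : LaurentSeries Qb) = dS Qb p
  coe_j : (j : LaurentSeries Qb) = jqModC Qb
  zero_ne_inf : zero ≠ inf
  deg_inf : inf.deg = 1
  deg_zero : zero.deg = 1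
  /-- `ord_∞` is the `q`-adic order -/
  ord_inf : ∀ f : E, inf.ord f = (f : LaurentSeries Qb).order
  ord_j_zero : zero.ord j = -(p : ℤ)
  /-- `∞` and `0` are the only poles of `j` -/
  eq_of_ord_j_neg : ∀ v : Place Qb E, v.ord j < 0 → v = inf ∨ v = zero
  ord_g_inf : inf.ord g = 1 - (p : ℤ)
  ord_g_zero : zero.ord g = (p : ℤ) - 1
  ord_g_eq_zero : ∀ v : Place Qb E, v ≠ inf → v ≠ zero → v.ord g = 0
  /-- the cusps are rational -/
  smul_inf : ∀ (σ : GQ) (s : SemilinearAut Qb E),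
    (∀ x : E, ((s • x : E) : LaurentSeries Qb) = gal σ (x : LaurentSeries Qb)) → s • inf = inf
  smul_zero : ∀ (σ : GQ) (s : SemilinearAut Qb E),
    (∀ x : E, ((s • x : E) : LaurentSeries Qb) = gal σ (x : LaurentSeries Qb)) → s • zero = zero

end Fermat.Agent.S15.Cusp
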