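import Fermat.Agent.LP.EIS.Formal
import Fermat.Agent.LP.EIS.EtaLim

/-!
# S15, module CUSP, file OneAdd: series of the form `1 + c q + O(q^2)`

Goal: `η(q)/η(q^p) = 1 - q + O(q^2)` (`p ≥ 2`) and `Δ(q)/Δ(q^p) = q^(1-p) (η(q)/η(q^p))^24`.
-/

set_option autoImplicit false

noncomputable section

namespace Fermat.Agent.S15.Cusp

open ModularCurve Fermat.Agent.GR Fermat.Agent.LP.EIS Fermat.Agent.S28

variable {Λ : Type*} [CommRing Λ]

/-- `u = 1 + c q + O(q^2)`. -/
def IsOneAdd (c : Λ) (u : LaurentSeries Λ) : Prop :=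
  (∀ n : ℤ, n < 0 → u.coeff n = 0) ∧ u.coeff 0 = 1 ∧ u.coeff 1 = c

theorem OneAdd_coeff_one_mul (U V : PowerSeries Λ) : PowerSeries.coeff 1 (U * V) =
    PowerSeries.coeff 0 U * PowerSeries.coeff 1 V + PowerSeries.coeff 1 U * PowerSeries.coeff 0 V := by
  have h : Finset.HasAntidiagonal.antidiagonal 1 = ({(0, 1), (1, 0)} : Finset (ℕ × ℕ)) := by decide
  rw [PowerSeries.coeff_mul, h, Finset.sum_pair (by decide)]

theorem OneAdd_iff {c : Λ} {u : LaurentSeries Λ} : IsOneAdd c u ↔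
    ∃ U : PowerSeries Λ, u = HahnSeries.ofPowerSeries ℤ Λ U ∧ PowerSeries.coeff 0 U = 1 ∧
      PowerSeries.coeff 1 U = c := by
  constructor
  · rintro ⟨h1, h2, h3⟩
    obtain ⟨U, rfl⟩ := EtaLim_exists_of_isPow (f := u) h1
    refine ⟨U, rfl, ?_, ?_⟩
    · rw [← EtaLim_coeff_nat]
      exact h2
    · rw [← EtaLim_coeff_nat]
      exact h3
  · rintro ⟨U, rfl, h2, h3⟩
    refine ⟨EtaLim_isPow_ofPowerSeries U, ?_, ?_⟩
    · rw [← h2, ← EtaLim_coeff_nat]
      rfl
    · rw [← h3, ← EtaLim_coeff_nat]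
      rfl

theorem IsOneAdd.one : IsOneAdd (0 : Λ) (1 : LaurentSeries Λ) := by
  rw [OneAdd_iff]
  refine ⟨1, (map_one _).symm, ?_, ?_⟩
  · simp
  · rw [PowerSeries.coeff_one, if_neg one_ne_zero]

/-- PROOF. `HahnSeries.coeff_mul` (sum over the antidiagonal of the supports); or write
`u = ofPowerSeries U`, `v = ofPowerSeries V` (possible since the negative coefficients vanish:
`LaurentSeries` API / `HahnSeries.ofPowerSeries`), and use `PowerSeries.coeff_mul`,
`Finset.antidiagonal` of `0`, `1`. -/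
theorem IsOneAdd.mul {c d : Λ} {u v : LaurentSeries Λ} (hu : IsOneAdd c u) (hv : IsOneAdd d v) :
    IsOneAdd (c + d) (u * v) := by
  rw [OneAdd_iff] at hu hv ⊢
  obtain ⟨U, rfl, hU0, hU1⟩ := hu
  obtain ⟨V, rfl, hV0, hV1⟩ := hv
  refine ⟨U * V, (map_mul _ _ _).symm, ?_, ?_⟩
  · rw [PowerSeries.coeff_mul, Finset.Nat.antidiagonal_zero, Finset.sum_singleton, hU0, hV0, one_mul]
  · rw [OneAdd_coeff_one_mul, hU0, hV0, hU1, hV1]
    ring

theorem IsOneAdd.pow {c : Λ} {u : LaurentSeries Λ} (hu : IsOneAdd c u) (n : ℕ) :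
    IsOneAdd ((n : Λ) * c) (u ^ n) := by
  induction n with
  | zero =>
    rw [pow_zero, Nat.cast_zero, zero_mul]
    exact IsOneAdd.one
  | succ n ih =>
    rw [pow_succ]
    have := ih.mul hu
    have e : ((n + 1 : ℕ) : Λ) * c = (n : Λ) * c + c := by push_cast; ring
    rw [e]
    exact this

/-- PROOF. `qExpand_coeff_mul`, `qExpand_coeff_of_not_dvd`: the coefficient at `n` is `0` unless
`p ∣ n`, and then it is `u.coeff (n / p)`; `p ∤ 1`. -/
theorem IsOneAdd.qExpand {c : Λ} {u : LaurentSeries Λ} (hu : IsOneAdd c u) (p : ℕ) [NeZero p]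
    (hp : 2 ≤ p) : IsOneAdd (0 : Λ) (qExpand Λ p u) := by
  refine ⟨IsPow.qExpand hu.1 p, ?_, ?_⟩
  · have := qExpand_coeff_mul (R := Λ) p u 0
    rw [mul_zero] at this
    rw [this, hu.2.1]
  · apply qExpand_coeff_of_not_dvd
    intro h
    have h1 := Int.le_of_dvd one_pos h
    have h2 : (2 : ℤ) ≤ p := by exact_mod_cast hp
    omega

/-- PROOF. `v` has order `0` (`HahnSeries.order_mul`, `u` has order `0`), so no negative
coefficients; compare the coefficients `0` and `1` of `u * v = 1` (use `IsOneAdd.mul`-type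
computation: if `v = a + b q + ..` then `u v = a + (b + c a) q + ..`). -/
theorem IsOneAdd.inv {k : Type*} [Field k] {c : k} {u : LaurentSeries k} (hu : IsOneAdd c u) :
    IsOneAdd (-c) u⁻¹ := by
  rw [OneAdd_iff] at hu ⊢
  obtain ⟨U, rfl, hU0, hU1⟩ := hu
  have hU0' : PowerSeries.constantCoeff U = 1 := by
    rw [← PowerSeries.coeff_zero_eq_constantCoeff_apply]
    exact hU0
  have hc : PowerSeries.constantCoeff U ≠ 0 := by
    rw [hU0']
    exact one_ne_zero
  have hmul : U * U⁻¹ = 1 := PowerSeries.mul_inv_cancel U hc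
  have hV0 : PowerSeries.coeff 0 U⁻¹ = 1 := by
    rw [PowerSeries.coeff_zero_eq_constantCoeff_apply, PowerSeries.constantCoeff_inv, hU0', inv_one]
  refine ⟨U⁻¹, ?_, hV0, ?_⟩
  · apply inv_eq_of_mul_eq_one_right
    rw [← map_mul, hmul, map_one]
  · have h1 := congrArg (PowerSeries.coeff 1) hmul
    rw [OneAdd_coeff_one_mul, hU0, hV0, hU1, PowerSeries.coeff_one, if_neg one_ne_zero] at h1
    linear_combination h1

/-- PROOF. `etaL Λ = ofPowerSeries (etaProd.map _)`, `etaProd = ∏' (1 - X^(n+1))`.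
`constantCoeff_etaProd` (Prelude).  For the coefficient of `X`: see `LP/EIS/EtaLim.lean`
(comparison of `etaL` with the finite products `etaFin Λ M` modulo high powers of `q`), then
`etaFin Λ 2 = (1 - q)(1 - q^2)`; or directly: `etaProd = (1 - X) * ∏' (1 - X^(n+2))`
(`Multipliable.tprod_eq_zero_mul` / `tprod_eq_zero_mul'`) and the second factor is `1 + O(X^2)`. -/
theorem isOneAdd_etaL : IsOneAdd (-1 : Λ) (etaL Λ) := by
  have h := congT_etaL_etaFin (Λ := Λ) (le_refl 2)
  have hfin : IsOneAdd (-1 : Λ) (etaFin Λ 2) := by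
    rw [EtaLim_etaFin_eq, OneAdd_iff]
    refine ⟨_, rfl, ?_, ?_⟩
    · rw [Finset.prod_range_succ, Finset.prod_range_succ, Finset.prod_range_zero, one_mul,
        PowerSeries.coeff_mul, Finset.Nat.antidiagonal_zero, Finset.sum_singleton]
      simp
    · rw [Finset.prod_range_succ, Finset.prod_range_succ, Finset.prod_range_zero, one_mul,
        OneAdd_coeff_one_mul]
      simp [PowerSeries.coeff_X_pow, PowerSeries.coeff_one]
  refine ⟨isPow_etaL, ?_, ?_⟩
  · rw [h 0 (by norm_num), hfin.2.1]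
  · rw [h 1 (by norm_num), hfin.2.2]

variable (k : Type*) [Field k]

theorem etaL_ne_zero : etaL k ≠ 0 := by
  intro h
  have := (isOneAdd_etaL (Λ := k)).2.1
  rw [h] at this
  simp at this

/-- `η(q)/η(q^p) = 1 - q + O(q^2)`. -/
theorem isOneAdd_ratio (p : ℕ) [NeZero p] (hp : 2 ≤ p) :
    IsOneAdd (-1 : k) (etaL k / qExpand k p (etaL k)) := by
  have := (isOneAdd_etaL (Λ := k)).mul ((isOneAdd_etaL (Λ := k)).qExpand p hp).inv
  rw [neg_zero, add_zero] at this
  rw [div_eq_mul_inv]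
  exact this

/-- PROOF. `dS = deltaL * qExpand p deltaInvL`, `deltaInvL = deltaL⁻¹` (`deltaL_mul_deltaInvL`),
`deltaL_eq : deltaL = single 1 1 * etaL ^ 24`, `qExpand_single`, `HahnSeries.single_mul_single`,
`map_inv₀`, `map_pow`. -/
theorem dS_eq_single_mul (p : ℕ) [NeZero p] :
    dS k p = HahnSeries.single (1 - (p : ℤ)) (1 : k) * (etaL k / qExpand k p (etaL k)) ^ 24 := by
  have h1 : deltaInvL k = (deltaL k)⁻¹ := eq_inv_of_mul_eq_one_right (deltaL_mul_deltaInvL k)
  have hS : HahnSeries.single (1 - (p : ℤ)) (1 : k) * HahnSeries.single (p : ℤ) (1 : k) =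
      HahnSeries.single (1 : ℤ) (1 : k) := by
    rw [HahnSeries.single_mul_single, one_mul, sub_add_cancel]
  have hSp : HahnSeries.single (p : ℤ) (1 : k) ≠ 0 := HahnSeries.single_ne_zero one_ne_zero
  have hQ : qExpand k p (etaL k) ≠ 0 := fun h =>
    etaL_ne_zero k (qExpand_injective p (by rw [h, map_zero]))
  unfold dS
  rw [h1, map_inv₀, deltaL_eq, map_mul, map_pow, qExpand_single, mul_one, ← hS]
  field_simp

/-- `ord_q (Δ(q)/Δ(q^p)) = 1 - p`. -/
theorem OneAdd_order {c : k} {u : LaurentSeries k} (hu : IsOneAdd c u) : u.order = 0 := by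
  have hu0 : u ≠ 0 := by
    intro h
    have := hu.2.1
    rw [h] at this
    simp at this
  apply le_antisymm
  · apply HahnSeries.order_le_of_coeff_ne_zero
    rw [hu.2.1]
    exact one_ne_zero
  · by_contra hcon
    exact hu0 (HahnSeries.coeff_order_eq_zero.mp (hu.1 _ (not_le.1 hcon)))

theorem order_dS (p : ℕ) [NeZero p] (hp : 2 ≤ p) : (dS k p).order = 1 - (p : ℤ) := by
  have hu := (isOneAdd_ratio k p hp).pow 24
  have hu0 : (etaL k / qExpand k p (etaL k)) ^ 24 ≠ 0 := by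
    intro h
    have := hu.2.1
    rw [h] at this
    simp at this
  rw [dS_eq_single_mul, HahnSeries.order_mul (HahnSeries.single_ne_zero one_ne_zero) hu0,
    HahnSeries.order_single one_ne_zero, OneAdd_order k hu, add_zero]

/-- the leading coefficient is `1`. -/
theorem coeff_dS (p : ℕ) [NeZero p] (hp : 2 ≤ p) : (dS k p).coeff (1 - (p : ℤ)) = 1 := by
  have hu := (isOneAdd_ratio k p hp).pow 24
  rw [dS_eq_single_mul, HahnSeries.coeff_single_mul, sub_self, hu.2.1, one_mul]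

end Fermat.Agent.S15.Cusp
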