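import Fermat.Agent.S15.Cusp.Defs
import Fermat.Agent.C36.Unit.CuspInst

/-!
# S15, module CUSP, file Two: `X₀(p)` has exactly two cusps

`j` has a simple pole at `∞ = qPlace`, a pole of order `p` at `0 = ∞ ∘ w_p`, and
`[FF ℚ̄ p : ℚ̄(j)] = p + 1 =` the degree of the polar divisor of `j`.
-/

set_option autoImplicit false

noncomputable section

namespace Fermat.Agent.S15.Cusp

open ModularCurve AlgebraicCurve IntermediateField Fermat.Agent.GR Fermat.Agent.LP.EIS

/-- abstract pole count.  PROOF: first half ((A0)) of `C36.Unit.cusp_core`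
(`C36/Unit/CuspCore.lean`): `S24.Zeros.finite_poles`, `S24.Zeros.sum_ord_poles`. -/
theorem two_poles {K F : Type*} [Field K] [IsAlgClosed K] [CharZero K] [Field F] [Algebra K F]
    (p : ℕ) (t : F) (ht : Transcendental K t) [FiniteDimensional K⟮t⟯ F]
    (hdeg : Module.finrank K⟮t⟯ F = p + 1) (v₁ v₂ : Place K F) (h12 : v₁ ≠ v₂)
    (hv1 : v₁.ord t = -1) (hv2 : v₂.ord t = -(p : ℤ)) (w : Place K F) (hw : w.ord t < 0) :
    w = v₁ ∨ w = v₂ := by
  classical
  have hfin : FiniteDimensional K⟮t⟯ F := inferInstance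
  have hpoles := S24.Zeros.finite_poles ht hfin
  have hsum := S24.Zeros.sum_ord_poles ht hfin
  rw [finsum_mem_eq_finite_toFinset_sum _ hpoles, hdeg] at hsum
  by_cases hp0 : p = 0
  · subst hp0
    -- `v₁` alone already gives the full degree
    by_contra hcon
    rw [not_or] at hcon
    obtain ⟨hw1, hw2⟩ := hcon
    have hsub : ({v₁, w} : Finset (Place K F)) ⊆ hpoles.toFinset := by
      intro x hx
      simp only [Finset.mem_insert, Finset.mem_singleton] at hx
      rw [Set.Finite.mem_toFinset]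
      rcases hx with rfl | rfl
      · show x.ord t < 0
        rw [hv1]; omega
      · exact hw
    have hle := Finset.sum_le_sum_of_subset_of_nonneg (f := fun x : Place K F => -x.ord t) hsub
      (by
        intro x hx _
        rw [Set.Finite.mem_toFinset] at hx
        have : x.ord t < 0 := hx
        show 0 ≤ -x.ord t
        omega)
    rw [Finset.sum_neg_distrib, Finset.sum_neg_distrib, hsum,
      Finset.sum_insert (by
        simp only [Finset.mem_singleton]
        exact fun h => hw1 h.symm), Finset.sum_singleton, hv1] at hle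
    push_cast at hle
    omega
  have hpZ : (0 : ℤ) < p := by exact_mod_cast Nat.pos_of_ne_zero hp0
  by_contra hcon
  rw [not_or] at hcon
  obtain ⟨hw1, hw2⟩ := hcon
  have hsub : ({v₁, v₂, w} : Finset (Place K F)) ⊆ hpoles.toFinset := by
    intro x hx
    simp only [Finset.mem_insert, Finset.mem_singleton] at hx
    rw [Set.Finite.mem_toFinset]
    rcases hx with rfl | rfl | rfl
    · show x.ord t < 0
      rw [hv1]; omega
    · show x.ord t < 0
      rw [hv2]; omega
    · exact hw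
  have hle := Finset.sum_le_sum_of_subset_of_nonneg (f := fun x : Place K F => -x.ord t) hsub
    (by
      intro x hx _
      rw [Set.Finite.mem_toFinset] at hx
      have : x.ord t < 0 := hx
      show 0 ≤ -x.ord t
      omega)
  rw [Finset.sum_neg_distrib, Finset.sum_neg_distrib, hsum,
    Finset.sum_insert (by
      simp only [Finset.mem_insert, Finset.mem_singleton, not_or]
      exact ⟨h12, fun h => hw1 h.symm⟩),
    Finset.sum_insert (by
      simp only [Finset.mem_singleton]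
      exact fun h => hw2 h.symm), Finset.sum_singleton, hv1, hv2] at hle
  push_cast at hle
  omega

/-- PROOF. `C36.Unit.cuspal_exists_wp p 1 p (mul_one p).symm (Nat.coprime_one_right p)`;
`jqModC ∈ FF ℚ̄ 1` (`jqModC_mem_full`). -/
theorem exists_wp (p : ℕ) [NeZero p] :
    ∃ w : FF Qb p ≃ₐ[Qb] FF Qb p, (∀ u, w (w u) = u) ∧
      ((w (C.jF Qb p) : FF Qb p) : LaurentSeries Qb) = qExpand Qb p (jqModC Qb) := by
  obtain ⟨w, h1, h2⟩ :=
    C36.Unit.cuspal_exists_wp p 1 p (mul_one p).symm (Nat.coprime_one_right p)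
  exact ⟨w, h1, h2 (C.jF Qb p) (jqModC_mem_full Qb 1)⟩

/-- PROOF. as `C36.Unit.BaseCase.finrank_tF`: `GR.E.relfinrank_FF_mul_prime 1 p hp _` gives
`relfinrank (FF ℚ̄ 1) (FF ℚ̄ (1 * p)) = p + 1`; `FF ℚ̄ 1 = ℚ̄⟮jqModC⟯`; get rid of `1 * p` with
`Nat.one_mul` (generalize the level: `∀ N, N = 1 * p → ..`, `subst`). -/
theorem finrank_jF {p : ℕ} (hp : p.Prime) :
    Module.finrank Qb⟮C.jF Qb p⟯ (FF Qb p) = p + 1 := by
  haveI : NeZero p := ⟨hp.ne_zero⟩
  have h1 := GR.E.BR10_relfinrank_j p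
  have h2 : dedekindPsi p = p + 1 := by
    have := GR.E.BR10_dedekindPsi_mul_prime 1 one_ne_zero p hp (by
      intro h
      exact hp.one_lt.ne' (Nat.dvd_one.1 h))
    rwa [one_mul, dedekindPsi_one, mul_one] at this
  have h3 : coeffEmb Qb jq = jqModC Qb := by
    rw [coeffEmb, ← jqModC_rat, coeffMap_jqModC]
  rw [h2, h3] at h1
  rw [← h1, ← relfinrank_top_right, ← relfinrank_map_map _ _ (FF Qb p).val]
  congr 1
  · rw [adjoin_map, Set.image_singleton]
    rfl
  · rw [← AlgHom.fieldRange_eq_map, fieldRange_val]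

theorem transcendental_jF (p : ℕ) : Transcendental Qb (C.jF Qb p) :=
  C.transcendental_jF Qb p

theorem finiteDimensional_jF (p : ℕ) [NeZero p] : FiniteDimensional Qb⟮C.jF Qb p⟯ (FF Qb p) :=
  GR.D.finiteDimensional_FF_of_transcendental Qb p (transcendental_jF p)

/-- **The cusp `0`.**  `v₀ := ∞ ∘ w_p` (`C36.Unit.exists_place_comap`), `ord_{v₀} j =
ord_q j(q^p) = -p` (`C.qPlace_ord`, `C36.Unit.BaseCase.cuspinst_order_qExpand`,
`C.qp_order_jqModC`), `v₀ ≠ ∞` since `p ≠ 1`. -/
theorem exists_cuspZero {p : ℕ} [NeZero p] (hp : p.Prime) :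
    ∃ v₀ : Place Qb (FF Qb p), v₀ ≠ C.qPlace Qb p ∧ v₀.ord (C.jF Qb p) = -(p : ℤ) ∧
      ∀ v : Place Qb (FF Qb p), v.ord (C.jF Qb p) < 0 → v = C.qPlace Qb p ∨ v = v₀ := by
  obtain ⟨w, -, hw⟩ := exists_wp p
  obtain ⟨v₀, hv₀⟩ := C36.Unit.exists_place_comap w (C.qPlace Qb p)
  have h1 : (C.qPlace Qb p).ord (C.jF Qb p) = -1 := by
    rw [C.qPlace_ord, C.coe_jF, C.qp_order_jqModC]
  have h2 : v₀.ord (C.jF Qb p) = -(p : ℤ) := by
    rw [hv₀, C.qPlace_ord, hw, C36.Unit.BaseCase.cuspinst_order_qExpand, C.qp_order_jqModC]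
    ring
  have hpZ : (1 : ℤ) < p := by exact_mod_cast hp.one_lt
  have h12 : C.qPlace Qb p ≠ v₀ := by
    intro h
    rw [← h, h1] at h2
    omega
  haveI := finiteDimensional_jF p
  exact ⟨v₀, h12.symm, h2, fun v hv =>
    two_poles p (C.jF Qb p) (transcendental_jF p) (finrank_jF hp) _ _ h12 h1 h2 v hv⟩

end Fermat.Agent.S15.Cusp
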