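import Fermat.Agent.S15.Cusp.Hol
import Fermat.Agent.S15.Cusp.Two
import Fermat.Agent.S15.Cusp.OneAdd

/-!
# S15, module CUSP, file Div: `div (Δ(q)/Δ(q^p)) = (p - 1) ((0) - (∞))`; the cusps are rational
-/

set_option autoImplicit false

noncomputable section

namespace Fermat.Agent.S15.Cusp

open ModularCurve AlgebraicCurve IntermediateField Fermat.Agent.GR Fermat.Agent.LP.EIS

/-- a place is determined by its order function.  PROOF: `Place.ext`; `x ∈ v.toValuationSubring ↔
0 ≤ v.ord x` for `x ≠ 0` (`S24.induced_mem_iff_ord_nonneg`, or `S24.Zeros.mem_of_ord_nonneg` and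
`S24.Zeros.ord_nonneg_of_mem`). -/
theorem place_eq_of_ord {K F : Type*} [Field K] [Field F] [Algebra K F] {v w : Place K F}
    (h : ∀ f : F, v.ord f = w.ord f) : v = w := by
  apply Place.ext
  ext x
  rw [S24.Zeros.mem_iff_ord_nonneg' v x, S24.Zeros.mem_iff_ord_nonneg' w x, h]

/-- abstract: a function with `ord = 0` outside two places of degree one.
PROOF: `HasPrincipalDivisors.exists_divisor` gives `D` with `D v = v.ord f`, `degree D = 0`;
`D = single v₁ (ord₁) + single v₂ (ord₂)` (`Finsupp.ext`), `Divisor.degree_single`. -/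
theorem ord_add_ord_eq_zero {K F : Type*} [Field K] [Field F] [Algebra K F]
    [HasPrincipalDivisors K F] (f : F) (hf : f ≠ 0) (v₁ v₂ : Place K F) (h12 : v₁ ≠ v₂)
    (hd1 : v₁.deg = 1) (hd2 : v₂.deg = 1)
    (h : ∀ v : Place K F, v ≠ v₁ → v ≠ v₂ → v.ord f = 0) : v₁.ord f + v₂.ord f = 0 := by
  classical
  obtain ⟨D, hD, hdeg⟩ := HasPrincipalDivisors.exists_divisor (K := K) f hf
  have hDe : D = Finsupp.single v₁ (v₁.ord f) + Finsupp.single v₂ (v₂.ord f) := by
    apply Finsupp.ext
    intro v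
    rw [hD, Finsupp.add_apply]
    by_cases h1 : v = v₁
    · subst h1
      rw [Finsupp.single_eq_same, Finsupp.single_eq_of_ne h12, add_zero]
    by_cases h2 : v = v₂
    · subst h2
      rw [Finsupp.single_eq_same, Finsupp.single_eq_of_ne h1, zero_add]
    · rw [Finsupp.single_eq_of_ne h1, Finsupp.single_eq_of_ne h2, h v h1 h2, add_zero]
  rw [hDe, map_add, Divisor.degree_single, Divisor.degree_single, hd1, hd2] at hdeg
  simpa using hdeg

/-- a coefficientwise field automorphism does not change the order. -/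
theorem Div_order_gal (σ : GQ) (f : LaurentSeries Qb) : (gal σ f).order = f.order := by
  by_cases hf : f = 0
  · subst hf
    rw [map_zero]
  have hf' : gal σ f ≠ 0 := by
    intro h
    apply hf
    ext n
    have := congrArg (fun z : LaurentSeries Qb => z.coeff n) h
    simpa using this
  apply le_antisymm
  · apply HahnSeries.order_le_of_coeff_ne_zero
    rw [gal_coeff]
    intro h
    exact hf (HahnSeries.coeff_order_eq_zero.mp ((map_eq_zero σ).1 h))
  · apply HahnSeries.order_le_of_coeff_ne_zero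
    intro h
    apply hf'
    apply HahnSeries.coeff_order_eq_zero.mp
    rw [gal_coeff, h, map_zero]

/-- PROOF: `(s • ∞).ord f = ∞.ord (s⁻¹ • f)` (`SemilinearAut.ord_smul`), `= order (gal σ⁻¹ f) =
order f` (a coefficientwise field automorphism does not change the support);
then `place_eq_of_ord`. -/
theorem smul_qPlace (p : ℕ) (σ : GQ) (s : SemilinearAut Qb (FF Qb p))
    (hs : ∀ x : FF Qb p, ((s • x : FF Qb p) : LaurentSeries Qb) = gal σ (x : LaurentSeries Qb)) :
    s • C.qPlace Qb p = C.qPlace Qb p := by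
  apply place_eq_of_ord
  intro f
  have h1 := SemilinearAut.ord_smul s (C.qPlace Qb p) (s⁻¹ • f)
  rw [smul_inv_smul] at h1
  rw [h1, C.qPlace_ord, C.qPlace_ord]
  have h2 := hs (s⁻¹ • f)
  rw [smul_inv_smul] at h2
  rw [h2, Div_order_gal]

/-- PROOF: `s • j = j` (`gal σ (jqModC) = jqModC`: `coeffMap_jqModC` / `map_jqModC`), so
`(s • v₀).ord j = v₀.ord j = -p < 0`, so `s • v₀ ∈ {∞, v₀}`; `s • v₀ = ∞` is impossible since
`∞.ord j = -1 ≠ -p`. -/
theorem smul_eq_of_ord_j {p : ℕ} (hp : p.Prime) (v₀ : Place Qb (FF Qb p))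
    (h0 : v₀.ord (C.jF Qb p) = -(p : ℤ))
    (h : ∀ v : Place Qb (FF Qb p), v.ord (C.jF Qb p) < 0 → v = C.qPlace Qb p ∨ v = v₀)
    (σ : GQ) (s : SemilinearAut Qb (FF Qb p))
    (hs : ∀ x : FF Qb p, ((s • x : FF Qb p) : LaurentSeries Qb) = gal σ (x : LaurentSeries Qb)) :
    s • v₀ = v₀ := by
  have hj : s • C.jF Qb p = C.jF Qb p := by
    apply Subtype.ext
    rw [hs, C.coe_jF]
    exact coeffMap_jqModC _
  have h1 : (s • v₀).ord (C.jF Qb p) = -(p : ℤ) := by
    have := SemilinearAut.ord_smul s v₀ (C.jF Qb p)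
    rw [hj] at this
    rw [this, h0]
  have hpZ : (1 : ℤ) < p := by exact_mod_cast hp.one_lt
  rcases h (s • v₀) (by rw [h1]; omega) with h2 | h2
  · exfalso
    rw [h2, C.qPlace_ord, C.coe_jF, C.qp_order_jqModC] at h1
    omega
  · exact h2

/-- **Export (level `p`, field `FF ℚ̄ p`).**  Assembly: `inf := C.qPlace`, `zero := v₀` of
`exists_cuspZero`, `g := gF p p dvd_rfl`, `j := C.jF`; `ord_g_inf`: `C.qPlace_ord`, `order_dS`;
`ord_g_eq_zero`: a place `v ∉ {∞, 0}` has `0 ≤ v.ord j`, `ord_gF_eq_zero`; `ord_g_zero`: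
`ord_add_ord_eq_zero` (instances/degrees: transport `GR.S.hasPrincipalDivisors_bar`,
`GR.S.place_deg_bar` along `GR.S.bar_eq_FF`, or use `S24.hasPrincipalDivisors`,
`S24.place_deg_eq_one` directly for `C.jF`). -/
theorem nonempty_cuspData_FF {p : ℕ} [NeZero p] (hp : p.Prime) :
    Nonempty (CuspData p (FF Qb p)) := by
  obtain ⟨v₀, h0inf, h0j, h0⟩ := exists_cuspZero hp
  haveI := finiteDimensional_jF p
  haveI : HasPrincipalDivisors Qb (FF Qb p) :=
    S24.hasPrincipalDivisors (C.jF Qb p) (transcendental_jF p)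
  have hdeg : ∀ v : Place Qb (FF Qb p), v.deg = 1 :=
    fun v => S24.place_deg_eq_one (C.jF Qb p) (transcendental_jF p) v
  have hginf : (C.qPlace Qb p).ord (gF p p dvd_rfl) = 1 - (p : ℤ) := by
    rw [C.qPlace_ord, coe_gF, order_dS Qb p hp.two_le]
  have hg0 : gF p p dvd_rfl ≠ 0 := by
    intro h
    have h1 := coeff_dS Qb p hp.two_le
    rw [← coe_gF p p dvd_rfl, h] at h1
    simp at h1
  have hgz : ∀ v : Place Qb (FF Qb p), v ≠ C.qPlace Qb p → v ≠ v₀ →
      v.ord (gF p p dvd_rfl) = 0 := by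
    intro v h1 h2
    apply ord_gF_eq_zero
    by_contra hcon
    rcases h0 v (not_le.1 hcon) with h | h
    · exact h1 h
    · exact h2 h
  have hsum := ord_add_ord_eq_zero (gF p p dvd_rfl) hg0 (C.qPlace Qb p) v₀ h0inf.symm
    (hdeg _) (hdeg _) hgz
  exact ⟨{
    inf := C.qPlace Qb p
    zero := v₀
    g := gF p p dvd_rfl
    j := C.jF Qb p
    coe_g := rfl
    coe_j := rfl
    zero_ne_inf := h0inf
    deg_inf := hdeg _
    deg_zero := hdeg _
    ord_inf := C.qPlace_ord
    ord_j_zero := h0j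
    eq_of_ord_j_neg := h0
    ord_g_inf := hginf
    ord_g_zero := by rw [hginf] at hsum; omega
    ord_g_eq_zero := hgz
    smul_inf := fun σ s hs => smul_qPlace p σ s hs
    smul_zero := fun σ s hs => smul_eq_of_ord_j hp v₀ h0j h0 σ s hs }⟩

/-- **Export.**  Use it with `E = modularFunctionFieldBar p`, `hE = GR.S.bar_eq_FF p`. -/
theorem nonempty_cuspData {p : ℕ} [NeZero p] (hp : p.Prime)
    (E : IntermediateField Qb (LaurentSeries Qb)) (hE : E = FF Qb p) :
    Nonempty (CuspData p E) := by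
  subst hE
  exact nonempty_cuspData_FF hp

end Fermat.Agent.S15.Cusp
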