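import Fermat.Agent.S15.Cusp.Arith
import Fermat.Agent.S15.Cusp.OneAdd
import Fermat.Agent.GR.F.Frob

/-!
# S15, module CUSP, file Formal: `Δ(q)/Δ(q^p)` is not an `l^a`-th power in characteristic `l`

`k` a field of characteristic `l`, `l ^ a ∣ p - 1`, `l ^ a ∤ 24`.
Then `Δ(q)/Δ(q^p) ≠ κ ψ^(l^a)` in `k((q))`.

PROOF.  `24 = l^v c`, `l ∤ c`, `v < a`; `p - 1 = l^a m`; `U = η(q)/η(q^p) = 1 - q + ..`.
`dS = q^(1-p) U^24 = (q^(-m))^(l^a) (U^c)^(l^v)`.  If `dS = κ ψ^(l^a)`, put `ψ₁ = ψ q^m`,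
`W = U^c / ψ₁^(l^(a-v))`: `W^(l^v) = κ` is a constant, so `W = w` is a constant
(`eq_C_of_pow_char_pow_eq_C`), `U^c = w (ψ₁^(l^(a-v-1)))^l`, whose coefficient at `q^1` vanishes
(`coeff_pow_char_of_not_dvd`); but the coefficient of `U^c` at `q^1` is `- c ≠ 0` in `k`.
-/

set_option autoImplicit false

noncomputable section

namespace Fermat.Agent.S15.Cusp

open ModularCurve Fermat.Agent.GR Fermat.Agent.LP.EIS

variable {k : Type*} [Field k] (l : ℕ) [Fact l.Prime] [CharP k l]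

/-- PROOF. `GR.pow_char_eq_qExpand : f ^ l = qExpand k l (coeffMap (frobenius k l) f)` and
`qExpand_coeff_of_not_dvd`. -/
theorem coeff_pow_char_of_not_dvd (f : LaurentSeries k) (n : ℤ) (hn : ¬ (l : ℤ) ∣ n) :
    (f ^ l).coeff n = 0 := by
  rw [pow_char_eq_qExpand l f]
  exact qExpand_coeff_of_not_dvd _ _ hn

/-- PROOF. `(f ^ l).coeff (l * n) = (f.coeff n) ^ l` (`pow_char_eq_qExpand`, `qExpand_coeff_mul`,
`coeffMap_coeff`, `frobenius_def`). -/
theorem coeff_pow_char_mul (f : LaurentSeries k) (n : ℤ) :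
    (f ^ l).coeff ((l : ℤ) * n) = (f.coeff n) ^ l := by
  rw [pow_char_eq_qExpand l f, qExpand_coeff_mul, coeffMap_coeff, frobenius_def]

/-- PROOF. Induction on `v`.  `v + 1`: `(f ^ l) ^ (l ^ v) = C κ`, so `f ^ l = C w`; for `n ≠ 0`:
`(f.coeff n) ^ l = (f ^ l).coeff (l n) = 0` (as `l n ≠ 0`), so `f.coeff n = 0`:
`f = C (f.coeff 0)` (`HahnSeries.ext`, `HahnSeries.coeff_C` / `C_apply`, `coeff_single`). -/
theorem eq_C_of_pow_char_pow_eq_C (f : LaurentSeries k) (v : ℕ) (κ : k)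
    (h : f ^ (l ^ v) = HahnSeries.C κ) : ∃ w : k, f = HahnSeries.C w := by
  induction v generalizing f κ with
  | zero => exact ⟨κ, by simpa using h⟩
  | succ v ih =>
    have hl0 : (l : ℤ) ≠ 0 := by exact_mod_cast (Fact.out : l.Prime).ne_zero
    rw [pow_succ', pow_mul] at h
    obtain ⟨w, hw⟩ := ih (f ^ l) κ h
    refine ⟨f.coeff 0, ?_⟩
    ext n
    rw [HahnSeries.C_apply, HahnSeries.coeff_single]
    split_ifs with hn
    · rw [hn]
    · have h1 := coeff_pow_char_mul l f n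
      rw [hw, HahnSeries.C_apply, HahnSeries.coeff_single_of_ne (mul_ne_zero hl0 hn)] at h1
      exact (pow_eq_zero_iff (Fact.out : l.Prime).ne_zero).1 h1.symm

/-- **(C-l), formal part.** -/
theorem dS_ne_C_mul_pow (p : ℕ) [NeZero p] (hp : 2 ≤ p) (a : ℕ) (h1 : l ^ a ∣ p - 1)
    (h2 : ¬ l ^ a ∣ 24) (κ : k) (ψ : LaurentSeries k) :
    dS k p ≠ HahnSeries.C κ * ψ ^ (l ^ a) := by
  intro hcon
  have hl : l.Prime := Fact.out
  obtain ⟨v, c, h24, hlc, hva⟩ := exists_eq_pow_mul hl h2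
  obtain ⟨m, hm⟩ := h1
  set U : LaurentSeries k := etaL k / qExpand k p (etaL k) with hU
  have hU1 : IsOneAdd (-1 : k) U := isOneAdd_ratio k p hp
  have hdS : dS k p = HahnSeries.single (1 - (p : ℤ)) (1 : k) * U ^ 24 := dS_eq_single_mul k p
  have hne : dS k p ≠ 0 := dS_ne_zero p
  have hψ0 : ψ ≠ 0 := by
    rintro rfl
    rw [zero_pow (pow_ne_zero a hl.ne_zero), mul_zero] at hcon
    exact hne hcon
  set ψ₁ : LaurentSeries k := ψ * HahnSeries.single (m : ℤ) (1 : k) with hψ₁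
  have hs0 : HahnSeries.single (m : ℤ) (1 : k) ≠ 0 := HahnSeries.single_ne_zero one_ne_zero
  have hψ₁0 : ψ₁ ≠ 0 := mul_ne_zero hψ0 hs0
  have hpm : ((p : ℤ) - 1) = ((l ^ a : ℕ) : ℤ) * m := by
    have : ((p - 1 : ℕ) : ℤ) = (p : ℤ) - 1 := by
      rw [Nat.cast_sub (by omega)]; rfl
    rw [← this, hm]
    push_cast
    ring
  have hpow : ψ₁ ^ (l ^ a) = ψ ^ (l ^ a) * HahnSeries.single ((p : ℤ) - 1) (1 : k) := by
    rw [hψ₁, mul_pow, HahnSeries.single_pow, one_pow, nsmul_eq_mul, hpm]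
  -- `U ^ 24 = C κ * ψ₁ ^ (l ^ a)`
  have h3 : U ^ 24 = HahnSeries.C κ * ψ₁ ^ (l ^ a) := by
    have h4 : HahnSeries.single ((p : ℤ) - 1) (1 : k) * HahnSeries.single (1 - (p : ℤ)) (1 : k) =
        1 := by
      rw [HahnSeries.single_mul_single, mul_one, sub_add_sub_cancel', sub_self]
      rfl
    calc U ^ 24 = HahnSeries.single ((p : ℤ) - 1) (1 : k) *
          (HahnSeries.single (1 - (p : ℤ)) (1 : k) * U ^ 24) := by
            rw [← mul_assoc, h4, one_mul]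
      _ = HahnSeries.single ((p : ℤ) - 1) (1 : k) * (HahnSeries.C κ * ψ ^ (l ^ a)) := by
            rw [← hdS, hcon]
      _ = HahnSeries.C κ * ψ₁ ^ (l ^ a) := by rw [hpow]; ring
  obtain ⟨d, hd⟩ : ∃ d, a = v + (d + 1) := ⟨a - v - 1, by omega⟩
  set g : LaurentSeries k := ψ₁ ^ (l ^ d) with hg
  have hg0 : g ≠ 0 := pow_ne_zero _ hψ₁0
  have h5 : ψ₁ ^ (l ^ a) = ((g ^ l)) ^ (l ^ v) := by
    rw [hg, ← pow_mul, ← pow_mul, hd]
    congr 1
    ring
  have h6 : U ^ 24 = (U ^ c) ^ (l ^ v) := by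
    rw [← pow_mul, h24, mul_comm]
  have h7 : (U ^ c / g ^ l) ^ (l ^ v) = HahnSeries.C κ := by
    rw [div_pow, ← h6, ← h5, h3, mul_div_assoc, div_self (pow_ne_zero _ hψ₁0), mul_one]
  obtain ⟨w, hw⟩ := eq_C_of_pow_char_pow_eq_C l _ v κ h7
  have h8 : U ^ c = HahnSeries.C w * g ^ l := by
    rw [← hw, div_mul_cancel₀ _ (pow_ne_zero _ hg0)]
  have h9 : (U ^ c).coeff 1 = (c : k) * (-1) := (hU1.pow c).2.2
  have h10 : (HahnSeries.C w * g ^ l).coeff 1 = 0 := by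
    rw [HahnSeries.C_mul_eq_smul, HahnSeries.coeff_smul, coeff_pow_char_of_not_dvd l g 1 ?_,
      smul_zero]
    intro hdvd
    have : l ∣ 1 := by exact_mod_cast hdvd
    exact hl.one_lt.ne' (Nat.dvd_one.1 this)
  rw [h8, h10] at h9
  have h11 : (c : k) = 0 := by
    have := h9.symm
    rwa [mul_neg, mul_one, neg_eq_zero] at this
  exact hlc ((CharP.cast_eq_zero_iff k l c).1 h11)

end Fermat.Agent.S15.Cusp
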