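import Fermat.Agent.S15.Cusp.Defs
import Fermat.Agent.S15.Cusp.Formal
import Fermat.Agent.GR.S.R.Iface
import Fermat.Agent.GR.S.R.Gauss

/-!
# S15, module CUSP, file Red: (C-l), `c_l ∉ J₁(A_l)`

`A` over `l ≠ p`, `l ^ a ∣ p - 1`, `l ^ a ∤ 24`, `r` a reduction map (`GR.S.IsRed A E r`) at ANY level
`E = FF ℚ̄ N'` containing `g = Δ(q)/Δ(q^p)`.  Then for every `ψ ≠ 0` in `E`:
`r_* div (g / ψ^(l^a)) ≠ 0`.

CONSEQUENCE (for RED / WIRE): with `p - 1 = l^a m`, `div g = l^a (m ((0) - (∞)))`: the class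
`c = m [(0) - (∞)]` is not in `J₁(A) = {[D] : r_* D = 0}`: if `m ((0)-(∞)) - div ψ` has `r_* = 0` then
so has its multiple by `l^a`, which is `div (g / ψ^(l^a))`.
-/

set_option autoImplicit false

noncomputable section

namespace Fermat.Agent.S15.Cusp

open ModularCurve AlgebraicCurve Fermat.Agent.GR Fermat.Agent.LP.EIS

variable {l : ℕ} (A : ValuationSubring Qb)

/-- the residue field of `A` has characteristic `l`.  (`LiesOverPrime`: see
`Fermat/Prelude/Def_FLTPrelim_Ramification.lean`: `(l : ℚ̄) ∈ A.nonunits`-type statement;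
`CharP` via `CharP.ofPrime..`/`ringChar`: `(l : k) = 0` and `l` prime, `k` nontrivial:
`CharP.of_prime_natCast_eq_zero`-like lemma or `charP_of_prime_pow_injective`; search the
repository for `CharP (IsLocalRing.ResidueField` : e.g. GR/F, GR/S, S18, EL.) -/
theorem charP_residueField (hl : l.Prime) (hA : A.LiesOverPrime l) :
    CharP (IsLocalRing.ResidueField A) l := by
  haveI : Fact l.Prime := ⟨hl⟩
  exact GR.charP_residueField A hA

/-- `g` is primitive: integral coefficients (`coeffMap_dS (Int.castRingHom ℚ̄)`: the coefficients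
are integers, `intCast_mem`) and leading coefficient `1` (`coeff_dS`). -/
theorem isPrim_dS (p : ℕ) [NeZero p] (hp : 2 ≤ p) : IsPrim A (dS Qb p) := by
  refine (isPrim_iff A).2 ⟨dS A p, coeffMap_dS _ p, ?_⟩
  have h : red A (dS A p) = dS (IsLocalRing.ResidueField A) p := coeffMap_dS _ p
  rw [h]
  exact dS_ne_zero p

/-- the series computation.  PROOF.  API: `GR/F/Red.lean` (`incl A`, `red A`, `isInt_iff`,
`isPrim_iff`, `isPrim_incl_iff`), `GR/S/R/Gauss.lean` (`Gauss_isPrim_mul`, `Gauss_not_isPrim_mul`, ..).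
`b` is primitive (`Cong` to the primitive `x`) and `red b = red x ≠ 0`.
LHS `dS * b * t^n` is primitive, `x * s^n` is primitive, so `κ` is a unit of `A`
(`κ ∈ A`: otherwise `κ⁻¹ ∈ 𝔪`, `x s^n = κ⁻¹ · LHS` is not primitive; `κ ∉ 𝔪` likewise).
Apply `red A`: `dS k p * red b * (red t)^n = C κ̄ * red x * (red s)^n`
(`red (dS) = dS k p` by `coeffMap_dS`), cancel `red b = red x`:
`dS k p = C κ̄ * (red s / red t)^n`: contradiction with `dS_ne_C_mul_pow`. -/
theorem false_of_eq (hl : l.Prime) (hA : A.LiesOverPrime l) (p : ℕ) [NeZero p] (hp : 2 ≤ p)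
    (a : ℕ) (h1 : l ^ a ∣ p - 1) (h2 : ¬ l ^ a ∣ 24) (κ : Qb) (hκ : κ ≠ 0)
    (x b s t : LaurentSeries Qb) (hx : IsPrim A x) (hb : IsInt A b) (hxb : Cong A x b)
    (hs : IsPrim A s) (ht : IsPrim A t)
    (e : dS Qb p * b * t ^ (l ^ a) = HahnSeries.C κ * (x * s ^ (l ^ a))) : False := by
  haveI : Fact l.Prime := ⟨hl⟩
  haveI := GR.charP_residueField A hA
  obtain ⟨x', rfl, hx'⟩ := (isPrim_iff A).1 hx
  obtain ⟨b', rfl⟩ := (isInt_iff A).1 hb
  obtain ⟨s', rfl, hs'⟩ := (isPrim_iff A).1 hs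
  obtain ⟨t', rfl, ht'⟩ := (isPrim_iff A).1 ht
  have hxb' : red A x' = red A b' := (cong_incl_iff A x' b').1 hxb
  have hd : dS Qb p = incl A (dS A p) := (coeffMap_dS _ p).symm
  have hdr : red A (dS A p) = dS (IsLocalRing.ResidueField A) p := coeffMap_dS _ p
  have hκA : κ ∈ A := by
    by_contra hκA
    have h1 := GR.S.R.Gauss_inv_mem_nonunits A hκA
    have h2 : incl A (x' * s' ^ (l ^ a)) =
        HahnSeries.C κ⁻¹ * incl A (dS A p * b' * t' ^ (l ^ a)) := by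
      rw [map_mul, map_mul, map_mul, map_pow, map_pow, ← hd, e, ← mul_assoc, ← map_mul,
        inv_mul_cancel₀ hκ, map_one, one_mul]
    have h3 : ¬ IsPrim A (HahnSeries.C κ⁻¹ * incl A (dS A p * b' * t' ^ (l ^ a))) := by
      refine GR.S.R.Gauss_not_isPrim_mul A (fun n => ?_) ((isInt_iff A).2 ⟨_, rfl⟩)
      rw [HahnSeries.C_apply, HahnSeries.coeff_single]
      split_ifs
      · exact h1
      · rw [ValuationSubring.mem_nonunits_iff, map_zero]
        exact zero_lt_one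
    apply h3
    rw [← h2, isPrim_incl_iff, map_mul, map_pow]
    exact mul_ne_zero hx' (pow_ne_zero _ hs')
  have hC : (HahnSeries.C κ : LaurentSeries Qb) = incl A (HahnSeries.C (⟨κ, hκA⟩ : A)) := by
    rw [HahnSeries.C_apply, HahnSeries.C_apply]
    exact (coeffMap_single A.subtype 0 (⟨κ, hκA⟩ : A)).symm
  have e' : dS A p * b' * t' ^ (l ^ a) = HahnSeries.C (⟨κ, hκA⟩ : A) * (x' * s' ^ (l ^ a)) := by
    apply incl_injective A
    rw [map_mul, map_mul, map_mul, map_mul, map_pow, map_pow, ← hd, ← hC]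
    exact e
  have e'' := congrArg (red A) e'
  rw [map_mul, map_mul, map_mul, map_mul, map_pow, map_pow, hdr, ← hxb'] at e''
  have hCr : red A (HahnSeries.C (⟨κ, hκA⟩ : A)) =
      HahnSeries.C (IsLocalRing.residue A ⟨κ, hκA⟩) := by
    rw [HahnSeries.C_apply, HahnSeries.C_apply]
    exact coeffMap_single (IsLocalRing.residue A) 0 (⟨κ, hκA⟩ : A)
  rw [hCr] at e''
  refine dS_ne_C_mul_pow (k := IsLocalRing.ResidueField A) l p hp a h1 h2
    (IsLocalRing.residue A ⟨κ, hκA⟩) (red A s' / red A t') ?_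
  rw [div_pow]
  field_simp
  have h5 : dS (IsLocalRing.ResidueField A) p * red A t' ^ (l ^ a) * red A x' =
      HahnSeries.C (IsLocalRing.residue A ⟨κ, hκA⟩) * red A s' ^ (l ^ a) * red A x' := by
    linear_combination e''
  exact mul_right_cancel₀ hx' h5

/-- **(C-l).**  PROOF.  `subst hE`.  If `D.mapDomain r = 0`, `hr.const (g / ψ^n) _ D hD` gives
`κ ≠ 0`, `x` primitive, `b` integral, `Cong x b`, `(g / ψ^n) * b = C κ * x`.
`GR.S.R.Gauss_exists_normalized A hψ`: `ψ * t = C κ₂ * s`, `s`, `t` primitive.  So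
`g * b * t^n = C (κ κ₂^n) * (x * s^n)`: `false_of_eq`. -/
theorem mapDomain_ne_zero (hl : l.Prime) (hA : A.LiesOverPrime l) (p : ℕ) [NeZero p] (hp : 2 ≤ p)
    (a : ℕ) (h1 : l ^ a ∣ p - 1) (h2 : ¬ l ^ a ∣ 24)
    (E : IntermediateField Qb (LaurentSeries Qb)) (N' : ℕ) (hE : E = FF Qb N')
    {S : Type} (r : Place Qb E → S) (hr : GR.S.IsRed A E r)
    (g ψ : E) (hg : (g : LaurentSeries Qb) = dS Qb p) (hψ : ψ ≠ 0)
    (D : Divisor Qb E) (hD : ∀ P, D P = P.ord (g / ψ ^ (l ^ a))) : D.mapDomain r ≠ 0 := by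
  subst hE
  intro h0
  have hg0 : g ≠ 0 := by
    intro h
    rw [h] at hg
    exact dS_ne_zero (Λ := Qb) p hg.symm
  obtain ⟨κ, x, b, hκ, hx, hb, hxb, e⟩ :=
    hr.const (g / ψ ^ (l ^ a)) (div_ne_zero hg0 (pow_ne_zero _ hψ)) D hD h0
  obtain ⟨κ₂, s, t, hκ₂, -, -, hs, ht, e₂, -⟩ := GR.S.R.Gauss_exists_normalized A hψ
  refine false_of_eq A hl hA p hp a h1 h2 (κ * κ₂ ^ (l ^ a)) (mul_ne_zero hκ (pow_ne_zero _ hκ₂))
    (x : LaurentSeries Qb) (b : LaurentSeries Qb) s t hx hb hxb hs ht ?_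
  have hψ' : (ψ : LaurentSeries Qb) ≠ 0 := fun h => hψ (Subtype.ext h)
  have e₃ : ((g / ψ ^ (l ^ a) : FF Qb N') : LaurentSeries Qb) =
      dS Qb p / (ψ : LaurentSeries Qb) ^ (l ^ a) := by
    rw [IntermediateField.coe_div, IntermediateField.coe_pow, hg]
  rw [e₃] at e
  have e₄ : dS Qb p * (b : LaurentSeries Qb) =
      HahnSeries.C κ * (x : LaurentSeries Qb) * (ψ : LaurentSeries Qb) ^ (l ^ a) := by
    rw [← e]
    field_simp
  rw [map_mul, map_pow]
  calc dS Qb p * (b : LaurentSeries Qb) * t ^ (l ^ a)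
      = HahnSeries.C κ * (x : LaurentSeries Qb) * ((ψ : LaurentSeries Qb) * t) ^ (l ^ a) := by
        rw [e₄, mul_pow]; ring
    _ = _ := by rw [e₂, mul_pow]; ring

end Fermat.Agent.S15.Cusp
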