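import Fermat.Agent.S15.Cusp.Class
import Fermat.Agent.S15.Cusp.Div
import Fermat.Agent.S15.Cusp.Red
import Fermat.Agent.GR.S.K1

/-!
# S15, module CUSP, file Export: the fields `c`, `c_fix`, `c_tor`, `c_Tℓ`, `c_not_mem` of `Raw`

`p ∉ {2,3,5,7,13}` prime; `l`, `a`, `m` with `p - 1 = l ^ a * m`, `l ∤ m`, `l ^ a ∤ 24`;
`c := m • [(0) - (∞)]`.
-/

set_option autoImplicit false

noncomputable section

namespace Fermat.Agent.S15.Cusp

open ModularCurve AlgebraicCurve Fermat.Agent.GR Fermat.Agent.LP.EIS Fermat.Agent.S17.FF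

local notation "𝔽" => modularFunctionFieldBar

/-- the arithmetic predicate on the descent prime. -/
structure IsDescent (p l a m : ℕ) : Prop where
  prime : l.Prime
  ne : l ≠ p
  two_mul_le : 2 * l ≤ p - 1
  eq : p - 1 = l ^ a * m
  not_dvd : ¬ l ∣ m
  not_dvd' : ¬ l ^ a ∣ 24

theorem exists_isDescent {p : ℕ} (hp : p.Prime) (hp' : p ∉ ({2, 3, 5, 7, 13} : Finset ℕ)) :
    ∃ l a m : ℕ, IsDescent p l a m := by
  obtain ⟨l, a, hl, hlp, h2, h3, h4⟩ := exists_prime_pow_dvd hp hp'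
  have hp1 : p - 1 ≠ 0 := by have := hp.two_le; omega
  obtain ⟨b, m, hm, hb⟩ := Nat.exists_eq_pow_mul_and_not_dvd hp1 l hl.ne_one
  refine ⟨l, b, m, hl, hlp, h2, hb, hm, fun h => h4 ((pow_dvd_pow l ?_).trans h)⟩
  by_contra hab
  rw [not_le] at hab
  have h5 : l ^ (b + 1) ∣ l ^ b * m := hb ▸ (pow_dvd_pow l hab).trans h3
  rw [pow_succ] at h5
  exact hm (Nat.dvd_of_mul_dvd_mul_left (pow_pos hl.pos b) h5)

variable {p : ℕ} [NeZero p] (C : CuspData p (𝔽 p))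

theorem Export_divf_g : divf (K := Qb) C.g = ((p : ℤ) - 1) • C.div₀ := by
  ext v
  rw [divf_apply, C.smul_div₀_apply]

/-- `T_l ((0) - (∞)) = (1 + l) ((0) - (∞))` as divisors. -/
theorem heckeDiv_div₀ (hp : 2 ≤ p) {l : ℕ} [NeZero l] (hl : l.Prime) (hlp : ¬ l ∣ p) :
    GR.S.heckeDiv p l C.div₀ = (1 + l) • C.div₀ := by
  obtain ⟨ζ, hζ⟩ : ∃ ζ : Qbˣ, IsPrimitiveRoot ζ l := by
    obtain ⟨ζ, hζ⟩ := HasEnoughRootsOfUnity.exists_primitiveRoot Qb l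
    exact ⟨hζ.isUnit (NeZero.ne l) |>.unit, IsPrimitiveRoot.coe_units_iff.mp (by simpa using hζ)⟩
  have h1 := GR.S.heckeDiv_divf p l C.g C.g_ne_zero
  have h2 : (letI := algebraAlong (heckeAlphaBar Qb p l)
      Algebra.norm (𝔽 p) (heckeBetaBar Qb p l C.g)) = C.g ^ (l + 1) := by
    apply Subtype.ext
    rw [GR.S.norm_heckeBeta p l hl hlp ζ hζ C.g, C.coe_g, heckeMulT_dS l p hl hlp ζ hζ]
    show _ = (C.g : LaurentSeries Qb) ^ (l + 1)
    rw [C.coe_g]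
  rw [h2, GR.S.divf_pow', Export_divf_g, map_zsmul] at h1
  have hp0 : ((p : ℤ) - 1) ≠ 0 := by
    have : (2 : ℤ) ≤ p := by exact_mod_cast hp
    omega
  ext v
  have h3 := congrArg (fun E => E v) h1
  simp only [Finsupp.smul_apply, smul_eq_mul, nsmul_eq_mul] at h3 ⊢
  apply mul_left_cancel₀ hp0
  rw [h3]
  push_cast
  ring

/-- `T_l c₀ = (1 + l) c₀`. -/
theorem heckeOperatorBar_c₀ (hp : 2 ≤ p) {l : ℕ} (hl : l.Prime) (hlp : ¬ l ∣ p) :
    heckeOperatorBar p (⟨l, hl⟩ : Nat.Primes) (C.c₀ : JZero p) = (1 + l) • (C.c₀ : JZero p) := by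
  have : NeZero l := ⟨hl.ne_zero⟩
  have h := GR.S.heckeOperatorBar_mk (N := p) l hl C.D₀
  refine h.trans ?_
  have e : (⟨GR.S.heckeDiv p l C.D₀, GR.S.heckeDiv_mem_degZero p l C.D₀.2⟩ :
      Divisor.degZero (K := Qb) (F := 𝔽 p)) = (1 + l) • C.D₀ :=
    Subtype.ext (heckeDiv_div₀ C hp hl hlp)
  rw [e]
  rfl

/-- **(C-l).** -/
theorem not_mem_K1 (hp : 2 ≤ p) {l a m : ℕ} (hl : l.Prime) (h1 : p - 1 = l ^ a * m)
    (h2 : ¬ l ^ a ∣ 24) (A : ValuationSubring Qb) (hA : A.LiesOverPrime l) {N' : ℕ} [NeZero N']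
    (hNN' : p ∣ N') {S : Type} (r : Place Qb (𝔽 N') → S) (hr : GR.S.IsRed A (𝔽 N') r) :
    m • (C.c₀ : JZero p) ∉ GR.S.K1 hNN' r := by
  intro hmem
  obtain ⟨D, hD, hDc⟩ := (GR.S.mem_K1_iff hNN' r _).mp hmem
  have h3 : Pic0.mk (D - m • C.D₀) = 0 := by
    have : Pic0.mk (D - m • C.D₀) = Pic0.mk D - m • Pic0.mk C.D₀ := rfl
    rw [this, hDc]
    exact sub_self _
  have h4 : ((D - m • C.D₀ : Divisor.degZero (K := Qb) (F := 𝔽 p)) : Divisor Qb (𝔽 p)) ∈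
      Divisor.principal (K := Qb) (F := 𝔽 p) := by
    have := (QuotientAddGroup.eq_zero_iff _).mp h3
    exact this
  obtain ⟨u, hu, hDu⟩ := h4
  have h5 : (D : Divisor Qb (𝔽 p)) = m • C.div₀ + divf u := by
    ext v
    have := hDu v
    rw [Finsupp.add_apply, divf_apply, ← this]
    show _ = (m • C.div₀) v + ((D : Divisor Qb (𝔽 p)) v - (m • C.div₀) v)
    ring
  have h6 : (l ^ a) • (D : Divisor Qb (𝔽 p)) = divf (C.g * u ^ (l ^ a)) := by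
    rw [divf_mul C.g_ne_zero (pow_ne_zero _ hu), GR.S.divf_pow', Export_divf_g, h5, smul_add,
      smul_smul, ← h1]
    congr 1
    have : ((p : ℤ) - 1) = ((p - 1 : ℕ) : ℤ) := by
      rw [Nat.cast_sub (by omega)]; simp
    rw [this, natCast_zsmul]
  have h7 : Finsupp.mapDomain r (divf (GR.S.inclBar hNN' (C.g * u ^ (l ^ a)))) = 0 := by
    rw [← GR.S.Red_divf, ← h6, map_nsmul, hD, smul_zero]
  refine mapDomain_ne_zero A hl hA p hp a ⟨m, h1⟩ h2 (𝔽 N') N' (GR.S.bar_eq_FF N') r hr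
    (GR.S.inclBar hNN' C.g) (GR.S.inclBar hNN' u)⁻¹ (by rw [GR.S.coe_inclBar, C.coe_g])
    (inv_ne_zero ((map_ne_zero _).mpr hu)) _ (fun P => ?_) h7
  rw [divf_apply, map_mul, map_pow, inv_pow, div_inv_eq_mul]

/-- **Export: the class `c = m [(0) - (∞)]`.** -/
theorem c_props (hp : p.Prime) {l a m : ℕ} (h : IsDescent p l a m) :
    (∀ σ : GQ, σ • (m • (C.c₀ : JZero p)) = m • (C.c₀ : JZero p)) ∧
    (l ^ a) • (m • (C.c₀ : JZero p)) = 0 ∧
    heckeOperatorBar p (⟨l, h.prime⟩ : Nat.Primes) (m • (C.c₀ : JZero p)) =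
      (1 + l) • (m • (C.c₀ : JZero p)) ∧
    ∀ (A : ValuationSubring Qb), A.LiesOverPrime l → ∀ (N' : ℕ) [NeZero N'] (hNN' : p ∣ N')
      (S : Type) (r : Place Qb (𝔽 N') → S), GR.S.IsRed A (𝔽 N') r →
        m • (C.c₀ : JZero p) ∉ GR.S.K1 hNN' r := by
  refine ⟨fun σ => ?_, ?_, ?_, fun A hA N' _ hNN' S r hr =>
    not_mem_K1 C hp.two_le h.prime h.eq h.not_dvd' A hA hNN' r hr⟩
  · have e : σ • (m • (C.c₀ : JZero p)) = m • (σ • (C.c₀ : JZero p)) :=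
      (DistribSMul.toAddMonoidHom (JZero p) σ).map_nsmul m _
    rw [e, galois_smul_c₀]
  · have := C.smul_smul_c₀ h.eq
    rw [natCast_zsmul, natCast_zsmul] at this
    exact_mod_cast this
  · rw [map_nsmul, heckeOperatorBar_c₀ C hp.two_le h.prime
      (fun hd => h.ne ((Nat.prime_dvd_prime_iff_eq h.prime hp).mp hd)), smul_comm]

end Fermat.Agent.S15.Cusp
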